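/-
`E[5]` is irreducible for a rational elliptic curve with square discriminant, in particular for
every Frey curve: a Galois-stable line gives a point on `w² = s(s² + 22s + 125)`, whose 2-isogenous
curve `Y² = X(X² - 11X - 1)` only has the trivial points.
-/
import Fermat.Agent.X015.Reducible
import Fermat.Agent.SmallP.Descent
import Fermat.Agent.EllTorsion.Count
import Fermat.Agent.MultRed.Frey

set_option autoImplicit false

namespace Fermat.Agent.FreyFive

open WeierstrassCurve WeierstrassCurve.Affine Fermat.Agent.MultRed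

local notation "Qbar" => AlgebraicClosure ℚ

theorem sq_add_four_mul_sub_one_ne_zero (s : ℚ) : s ^ 2 + 4 * s - 1 ≠ 0 := by
  intro h
  obtain ⟨w, hw⟩ := SmallP.exists_int_sq (N := 5) (q := s + 2) (by push_cast; linear_combination -h)
  have : (5 : ZMod 3) = (w : ZMod 3) ^ 2 := by exact_mod_cast congrArg (fun z : ℤ => (z : ZMod 3)) hw
  exact (show ∀ x : ZMod 3, (5 : ZMod 3) ≠ x ^ 2 by decide) _ this

/-- No rational point with `s ≠ 0` on `w² = s(s² + 22s + 125)`. -/
theorem curve_twenty {s w : ℚ} (hs : s ≠ 0) (h : w ^ 2 = s * (s ^ 2 + 22 * s + 125)) : False := by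
  have hX : w ^ 2 / (4 * s ^ 2) = 0 := by
    refine SmallP.five_curve (y := w * (s ^ 2 - 125) / (8 * s ^ 2)) ?_
    rw [h]
    field_simp
    rw [h]
    ring
  have hw : w ^ 2 = 0 := by
    rcases div_eq_zero_iff.1 hX with h' | h'
    · exact h'
    · exact absurd h' (by positivity)
  rw [hw] at h
  nlinarith [sq_nonneg (s + 11), (mul_eq_zero.1 h.symm).resolve_left hs]

/-- A rational elliptic curve with square discriminant has irreducible five-torsion. -/
theorem irreducible_five_of_isSquare_Δ (E : WeierstrassCurve ℚ) (hΔ : E.Δ ≠ 0)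
    (hsq : IsSquare E.Δ) : Affine.Point.GaloisRepIsIrreducible (K := Qbar) ℚ E 5 := by
  by_contra hred
  have : E.IsElliptic := ⟨isUnit_iff_ne_zero.2 hΔ⟩
  obtain ⟨s, hs, h⟩ := X015.exists_param_five E.toAffine hΔ
    (EllTorsion.natCard_torsionBy_baseChange E Qbar 5 (by norm_num)) hred
  obtain ⟨δ, hδ⟩ := hsq
  have hδ0 : δ ≠ 0 := fun h0 => hΔ (by rw [hδ, h0, mul_zero])
  have hq := sq_add_four_mul_sub_one_ne_zero s
  have h' : E.c₄ ^ 3 * s = δ * δ * (s ^ 2 + 10 * s + 5) ^ 3 := hδ ▸ h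
  have hrel : 1728 * (δ * δ) = E.c₄ ^ 3 - E.c₆ ^ 2 := hδ ▸ E.c_relation
  refine curve_twenty hs (w := s * E.c₆ / (δ * (s ^ 2 + 4 * s - 1))) ?_
  rw [div_pow, div_eq_iff (pow_ne_zero 2 (mul_ne_zero hδ0 hq))]
  linear_combination s * h' + s ^ 2 * hrel

theorem isSquare_freyCurve_Δ (P : FreyPackage) : IsSquare P.freyCurve.Δ := by
  refine ⟨((P.a * P.b * P.c : ℤ) : ℚ) ^ P.p / 16, ?_⟩
  have h := congrArg (fun z : ℤ => (z : ℚ)) (freyCurveInt_Δ_mul P)
  rw [← freyCurveInt_map P, WeierstrassCurve.map_Δ, eq_intCast]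
  push_cast at h ⊢
  rw [div_mul_div_comm, eq_div_iff (by norm_num), ← pow_add, ← two_mul]
  linear_combination h

/-- `E[5]` is irreducible for every Frey curve. -/
theorem frey_five_irreducible (P : FreyPackage) :
    Affine.Point.GaloisRepIsIrreducible (K := Qbar) ℚ P.freyCurve 5 := by
  refine irreducible_five_of_isSquare_Δ _ ?_ (isSquare_freyCurve_Δ P)
  rw [← freyCurveInt_map P, WeierstrassCurve.map_Δ, eq_intCast]
  exact Int.cast_ne_zero.2 (freyCurveInt_Δ_ne_zero P)

end Fermat.Agent.FreyFive
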